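import Mathlib
import Fermat.Agent.KummerL.Defs

/-!
# Case II of Fermat for a prime `p` with `𝓞 ℚ(ζ_p)` a PID: basic facts about `λ = ζ - 1`
-/

set_option autoImplicit false
set_option linter.unusedSectionVars false

namespace Fermat.Agent.KummerL

open NumberField

variable {p : ℕ} [hp : Fact p.Prime] {K : Type*} [Field K] [NumberField K]
  [IsCyclotomicExtension {p} ℚ K] {ζ : K} (hζ : IsPrimitiveRoot ζ p)

/-- Auxiliary: `p` elements of `𝓞 K` that are pairwise incongruent modulo `λ` represent every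
residue class modulo `λ` (the quotient `𝓞 K ⧸ (λ)` has exactly `p` elements). -/
theorem c2basic_exists_dvd_sub (hp2 : p ≠ 2) (f : Fin p → 𝓞 K)
    (hf : ∀ i j : Fin p, i ≠ j → ¬ (hζ.toInteger - 1) ∣ f i - f j) (x : 𝓞 K) :
    ∃ i : Fin p, (hζ.toInteger - 1) ∣ x - f i := by
  have hcard : Nat.card (𝓞 K ⧸ Ideal.span {hζ.toInteger - 1}) = p := by
    rw [hζ.card_quotient_toInteger_sub_one, hζ.norm_toInteger_sub_one_of_prime_ne_two' hp2]
    simp
  have hfin : Finite (𝓞 K ⧸ Ideal.span {hζ.toInteger - 1}) := hζ.finite_quotient_span_sub_one'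
  let g : Fin p → 𝓞 K ⧸ Ideal.span {hζ.toInteger - 1} := fun i => Ideal.Quotient.mk _ (f i)
  have hg : Function.Injective g := by
    intro i j hij
    by_contra hne
    apply hf i j hne
    rw [← Ideal.mem_span_singleton, ← Ideal.Quotient.eq]
    exact hij
  have hbij : Function.Bijective g := by
    rw [Nat.bijective_iff_injective_and_card]
    exact ⟨hg, by simp [hcard]⟩
  obtain ⟨i, hi⟩ := hbij.2 (Ideal.Quotient.mk _ x)
  refine ⟨i, ?_⟩
  rw [← Ideal.mem_span_singleton, ← Ideal.Quotient.eq]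
  exact hi.symm

/-- Every residue class modulo `λ = ζ - 1` is represented by a rational integer. -/
theorem exists_int_sub_dvd (hp2 : p ≠ 2) (x : 𝓞 K) : ∃ n : ℤ, (hζ.toInteger - 1) ∣ x - (n : 𝓞 K) := by
  obtain ⟨i, hi⟩ := c2basic_exists_dvd_sub hζ hp2 (fun i : Fin p => (((i : ℕ) : ℤ) : 𝓞 K)) (by
    intro i j hij h
    rw [← Int.cast_sub, IsCyclotomicExtension.Rat.zeta_sub_one_dvd_intCast_iff' p hζ] at h
    apply hij
    have h1 : (i : ℕ) < p := i.2
    have h2 : (j : ℕ) < p := j.2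
    apply Fin.ext
    have h3 := Int.eq_of_sub_eq_zero (Int.eq_zero_of_abs_lt_dvd h (by rw [abs_lt]; omega))
    exact_mod_cast h3) x
  exact ⟨_, hi⟩

/-- `p` divides `λ ^ p`. -/
theorem prime_dvd_lam_pow : (p : 𝓞 K) ∣ (hζ.toInteger - 1) ^ p := by
  have h := (IsCyclotomicExtension.Rat.associated_zeta_sub_one_pow_prime p hζ).symm.dvd
  exact h.trans (pow_dvd_pow _ (Nat.sub_le p 1))

/-- Auxiliary: if `λ ∣ x - n` then `p ∣ x ^ p - n ^ p`. -/
theorem c2basic_dvd_pow_sub_pow (x : 𝓞 K) (n : ℤ) (h : (hζ.toInteger - 1) ∣ x - (n : 𝓞 K)) :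
    (p : 𝓞 K) ∣ x ^ p - ((n ^ p : ℤ) : 𝓞 K) := by
  obtain ⟨y, hy⟩ := h
  obtain ⟨r, hr⟩ := exists_add_pow_prime_eq hp.out (n : 𝓞 K) ((hζ.toInteger - 1) * y)
  obtain ⟨s, hs⟩ := prime_dvd_lam_pow hζ
  have hx : x = (n : 𝓞 K) + (hζ.toInteger - 1) * y := by rw [← hy]; ring
  refine ⟨s * y ^ p + (n : 𝓞 K) * ((hζ.toInteger - 1) * y) * r, ?_⟩
  rw [hx, hr, mul_pow, hs, Int.cast_pow]
  ring

/-- `p`-th powers are congruent to rational integers modulo `p`. -/
theorem exists_int_sub_pow_dvd (hp2 : p ≠ 2) (x : 𝓞 K) : ∃ n : ℤ, (p : 𝓞 K) ∣ x ^ p - (n : 𝓞 K) := by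
  have hζ : IsPrimitiveRoot (IsCyclotomicExtension.zeta p ℚ K) p :=
    IsCyclotomicExtension.zeta_spec p ℚ K
  obtain ⟨n, hn⟩ := exists_int_sub_dvd hζ hp2 x
  exact ⟨n ^ p, c2basic_dvd_pow_sub_pow hζ x n hn⟩

/-- `p`-th powers of elements prime to `λ` are congruent mod `p` to integers prime to `p`. -/
theorem exists_int_sub_pow_dvd' (hp2 : p ≠ 2) (x : 𝓞 K) (hx : ¬ (hζ.toInteger - 1) ∣ x) :
    ∃ n : ℤ, ¬ (p : ℤ) ∣ n ∧ (p : 𝓞 K) ∣ x ^ p - (n : 𝓞 K) := by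
  obtain ⟨n, hn⟩ := exists_int_sub_dvd hζ hp2 x
  refine ⟨n ^ p, fun h => hx ?_, c2basic_dvd_pow_sub_pow hζ x n hn⟩
  have hpn : (p : ℤ) ∣ n := (Nat.prime_iff_prime_int.1 hp.out).dvd_of_dvd_pow h
  have hln : (hζ.toInteger - 1) ∣ (n : 𝓞 K) :=
    (IsCyclotomicExtension.Rat.zeta_sub_one_dvd_intCast_iff' p hζ).2 hpn
  have := dvd_add hn hln
  rwa [sub_add_cancel] at this

/-- `ζ ^ i - ζ ^ j` is associated to `λ` for distinct `i, j < p`. -/
theorem associated_pow_sub_pow {i j : ℕ} (hi : i < p) (hj : j < p) (hij : i ≠ j) :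
    Associated (hζ.toInteger ^ i - hζ.toInteger ^ j) (hζ.toInteger - 1) := by
  have hζ' := hζ.toInteger_isPrimitiveRoot
  have hp2 : 2 ≤ p := hp.out.two_le
  have key : ∀ a k : ℕ, 0 < k → k < p →
      Associated (hζ.toInteger ^ (a + k) - hζ.toInteger ^ a) (hζ.toInteger - 1) := by
    intro a k hk0 hkp
    have hcop : k.Coprime p :=
      ((Nat.Prime.coprime_iff_not_dvd hp.out).2 (Nat.not_dvd_of_pos_of_lt hk0 hkp)).symm
    exact (hζ'.associated_pow_add_sub_sub_one hp2 a hcop).symm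
  rcases Nat.lt_or_gt_of_ne hij with h | h
  · have h1 := key i (j - i) (by omega) (by omega)
    rw [show i + (j - i) = j by omega] at h1
    rw [← neg_sub]
    exact h1.neg_left
  · have h1 := key j (i - j) (by omega) (by omega)
    rwa [show j + (i - j) = i by omega] at h1

/-- `1 + ζ` is a unit for odd `p`. -/
theorem isUnit_one_add_zeta (hp2 : p ≠ 2) : IsUnit (1 + hζ.toInteger) := by
  have hζ' := hζ.toInteger_isPrimitiveRoot
  have hcop : Nat.Coprime 2 p := (Nat.coprime_primes Nat.prime_two hp.out).2 (Ne.symm hp2)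
  have h := hζ'.geom_sum_isUnit hp.out.two_le hcop
  simpa [Finset.sum_range_succ] using h

/-- `λ` does not divide a unit. -/
theorem not_lam_dvd_unit (u : (𝓞 K)ˣ) : ¬ (hζ.toInteger - 1) ∣ (u : 𝓞 K) := fun h =>
  hζ.zeta_sub_one_prime'.not_isUnit (isUnit_of_dvd_unit h u.isUnit)

/-- If `p` elements of `𝓞 K` are pairwise incongruent modulo `λ`, one of them is divisible by
`λ` (pigeonhole: `𝓞 K ⧸ (λ)` has exactly `p` elements). -/
theorem exists_lam_dvd_of_pairwise_not_dvd_sub (hp2 : p ≠ 2) (f : Fin p → 𝓞 K)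
    (hf : ∀ i j : Fin p, i ≠ j → ¬ (hζ.toInteger - 1) ∣ f i - f j) :
    ∃ i : Fin p, (hζ.toInteger - 1) ∣ f i := by
  obtain ⟨i, hi⟩ := c2basic_exists_dvd_sub hζ hp2 f hf 0
  refine ⟨i, ?_⟩
  rwa [zero_sub, dvd_neg] at hi

/-- The factorisation `x ^ p + y ^ p = ∏_{i < p} (x + ζ ^ i * y)` for odd `p`. -/
theorem pow_add_pow_eq_prod_range (hp2 : p ≠ 2) (x y : 𝓞 K) :
    x ^ p + y ^ p = ∏ i ∈ Finset.range p, (x + hζ.toInteger ^ i * y) := by
  have hodd : Odd p := hp.out.odd_of_ne_two hp2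
  have hζ' := hζ.toInteger_isPrimitiveRoot
  rw [hζ'.pow_add_pow_eq_prod_add_mul x y hodd]
  symm
  refine Finset.prod_nbij (fun i => hζ.toInteger ^ i) ?_ ?_ ?_ ?_
  · intro i _
    rw [Polynomial.mem_nthRootsFinset hp.out.pos, ← pow_mul, mul_comm, pow_mul, hζ'.pow_eq_one,
      one_pow]
  · exact hζ'.injOn_pow
  · intro μ hμ
    rw [Finset.mem_coe, Polynomial.mem_nthRootsFinset hp.out.pos] at hμ
    obtain ⟨i, hi, rfl⟩ := hζ'.eq_pow_of_pow_eq_one hμ
    exact ⟨i, Finset.mem_coe.2 (Finset.mem_range.2 hi), rfl⟩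
  · intro i _
    rfl

end Fermat.Agent.KummerL
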