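import Mathlib
import Fermat.Agent.KummerL.CaseII.Basic

/-!
# Case II: the generalized Fermat equation `a ^ p + b ^ p = u * c ^ p` in `𝓞 ℚ(ζ_p)`

Modelled on `Mathlib/NumberTheory/FLT/Three.lean` (`Solution'`, `Solution`).
-/

set_option autoImplicit false

namespace Fermat.Agent.KummerL

open NumberField

variable {p : ℕ} [hp : Fact p.Prime] {K : Type*} [Field K] [NumberField K]
  [IsCyclotomicExtension {p} ℚ K] {ζ : K}

/-- A solution of the generalized equation `a ^ p + b ^ p = u * c ^ p` with `λ ∤ a`, `λ ∤ b`,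
`λ ∣ c`, `c ≠ 0`, `a`, `b` coprime (`λ = ζ - 1`). -/
structure Solution' (hζ : IsPrimitiveRoot ζ p) where
  a : 𝓞 K
  b : 𝓞 K
  c : 𝓞 K
  u : (𝓞 K)ˣ
  ha : ¬ (hζ.toInteger - 1) ∣ a
  hb : ¬ (hζ.toInteger - 1) ∣ b
  hc : c ≠ 0
  coprime : IsCoprime a b
  hcdvd : (hζ.toInteger - 1) ∣ c
  H : a ^ p + b ^ p = u * c ^ p

/-- A `Solution'` with the extra normalisation `λ ^ 2 ∣ a + b`. -/
structure Solution (hζ : IsPrimitiveRoot ζ p) extends Solution' hζ where
  hab : (hζ.toInteger - 1) ^ 2 ∣ a + b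

variable {hζ : IsPrimitiveRoot ζ p}

/-- The multiplicity of `λ` in `c`. -/
noncomputable def Solution'.multiplicity (S' : Solution' hζ) : ℕ :=
  _root_.multiplicity (hζ.toInteger - 1) S'.c

/-- The multiplicity of `λ` in `c`. -/
noncomputable def Solution.multiplicity (S : Solution hζ) : ℕ := S.toSolution'.multiplicity

/-- The multiplicity of `λ` in `c` is finite. -/
theorem Solution'.multiplicity_lambda_c_finite (S' : Solution' hζ) :
    FiniteMultiplicity (hζ.toInteger - 1) S'.c :=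
  .of_not_isUnit hζ.zeta_sub_one_prime'.not_isUnit S'.hc

omit [NumberField K] [IsCyclotomicExtension {p} ℚ K] in
/-- `λ = ζ - 1` divides `ζ ^ i - ζ ^ j` for all `i`, `j`. -/
theorem c2sol_lam_dvd_zeta_pow_sub_zeta_pow (hζ : IsPrimitiveRoot ζ p) (i j : ℕ) :
    (hζ.toInteger - 1) ∣ hζ.toInteger ^ i - hζ.toInteger ^ j := by
  have h : hζ.toInteger ^ i - hζ.toInteger ^ j =
      (hζ.toInteger ^ i - 1) - (hζ.toInteger ^ j - 1) := by ring
  rw [h]
  exact dvd_sub (sub_one_dvd_pow_sub_one _ i) (sub_one_dvd_pow_sub_one _ j)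

/-- `λ` divides every factor `a + ζ ^ i * b`. -/
theorem Solution'.lam_dvd_add_zeta_pow_mul (hp2 : p ≠ 2) (S' : Solution' hζ) (i : ℕ) :
    (hζ.toInteger - 1) ∣ S'.a + hζ.toInteger ^ i * S'.b := by
  have hprime : Prime (hζ.toInteger - 1) := hζ.zeta_sub_one_prime'
  have hdvd : (hζ.toInteger - 1) ∣ ∏ j ∈ Finset.range p, (S'.a + hζ.toInteger ^ j * S'.b) := by
    rw [← pow_add_pow_eq_prod_range hζ hp2, S'.H]
    exact (S'.hcdvd.trans (dvd_pow_self _ hp.out.ne_zero)).mul_left _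
  obtain ⟨j, -, hj⟩ := hprime.exists_mem_finset_dvd hdvd
  have h : S'.a + hζ.toInteger ^ i * S'.b =
      (S'.a + hζ.toInteger ^ j * S'.b) + (hζ.toInteger ^ i - hζ.toInteger ^ j) * S'.b := by
    ring
  rw [h]
  exact dvd_add hj ((c2sol_lam_dvd_zeta_pow_sub_zeta_pow hζ i j).mul_right _)

/-- Some factor `a + ζ ^ i * b` is divisible by `λ ^ 2` (pigeonhole modulo `λ`). -/
theorem Solution'.exists_lam_sq_dvd (hp2 : p ≠ 2) (S' : Solution' hζ) :
    ∃ i : ℕ, i < p ∧ (hζ.toInteger - 1) ^ 2 ∣ S'.a + hζ.toInteger ^ i * S'.b := by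
  have hprime : Prime (hζ.toInteger - 1) := hζ.zeta_sub_one_prime'
  have hex : ∀ i : ℕ, ∃ x : 𝓞 K, S'.a + hζ.toInteger ^ i * S'.b = (hζ.toInteger - 1) * x :=
    fun i => S'.lam_dvd_add_zeta_pow_mul hp2 i
  choose f hf using hex
  have hpair : ∀ i j : Fin p, i ≠ j →
      ¬ (hζ.toInteger - 1) ∣ (fun k : Fin p => f k) i - (fun k : Fin p => f k) j := by
    intro i j hij hdvd
    apply S'.hb
    have hij' : (i : ℕ) ≠ (j : ℕ) := fun h => hij (Fin.ext h)
    have hassoc : Associated (hζ.toInteger ^ (i : ℕ) - hζ.toInteger ^ (j : ℕ))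
        (hζ.toInteger - 1) := associated_pow_sub_pow hζ i.2 j.2 hij'
    have h1 : (hζ.toInteger - 1) * (hζ.toInteger - 1) ∣
        (hζ.toInteger ^ (i : ℕ) - hζ.toInteger ^ (j : ℕ)) * S'.b := by
      have h2 : (hζ.toInteger ^ (i : ℕ) - hζ.toInteger ^ (j : ℕ)) * S'.b =
          (hζ.toInteger - 1) * (f i - f j) := by
        rw [mul_sub, ← hf, ← hf]
        ring
      rw [h2]
      exact mul_dvd_mul_left _ hdvd
    have h3 : (hζ.toInteger - 1) * (hζ.toInteger - 1) ∣ (hζ.toInteger - 1) * S'.b :=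
      (hassoc.mul_right S'.b).dvd_iff_dvd_right.1 h1
    exact (mul_dvd_mul_iff_left hprime.ne_zero).1 h3
  obtain ⟨i, hi⟩ := exists_lam_dvd_of_pairwise_not_dvd_sub hζ hp2 (fun k : Fin p => f k) hpair
  refine ⟨i, i.2, ?_⟩
  rw [hf, pow_two]
  exact mul_dvd_mul_left _ hi

/-- Every `Solution'` can be normalised to a `Solution` with the same multiplicity
(replace `b` by `ζ ^ i * b`). -/
theorem exists_Solution_of_Solution' (hp2 : p ≠ 2) (S' : Solution' hζ) :
    ∃ S : Solution hζ, S.multiplicity = S'.multiplicity := by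
  obtain ⟨i, -, hi⟩ := S'.exists_lam_sq_dvd hp2
  have hprim : IsPrimitiveRoot hζ.toInteger p := hζ.toInteger_isPrimitiveRoot
  have hunit : IsUnit (hζ.toInteger ^ i) := (hprim.isUnit hp.out.ne_zero).pow i
  exact ⟨
  { a := S'.a
    b := hζ.toInteger ^ i * S'.b
    c := S'.c
    u := S'.u
    ha := S'.ha
    hb := fun h => S'.hb (hunit.dvd_mul_left.1 h)
    hc := S'.hc
    coprime := (isCoprime_mul_unit_left_right hunit _ _).2 S'.coprime
    hcdvd := S'.hcdvd
    H := by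
      rw [mul_pow, ← pow_mul, mul_comm i p, pow_mul, hprim.pow_eq_one, one_pow, one_mul, S'.H]
    hab := hi }, rfl⟩

set_option linter.unusedVariables false in
/-- A case II integer solution gives a `Solution'`. -/
theorem exists_Solution'_of_int (hp2 : p ≠ 2) (hζ : IsPrimitiveRoot ζ p) {a b c : ℤ} (hc : c ≠ 0)
    (ha : ¬ (p : ℤ) ∣ a) (hb : ¬ (p : ℤ) ∣ b) (hpc : (p : ℤ) ∣ c) (hab : IsCoprime a b)
    (h : a ^ p + b ^ p = c ^ p) : Nonempty (Solution' hζ) := by
  refine ⟨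
  { a := (a : 𝓞 K)
    b := (b : 𝓞 K)
    c := (c : 𝓞 K)
    u := 1
    ha := fun hdvd => ha ((IsCyclotomicExtension.Rat.zeta_sub_one_dvd_intCast_iff' p hζ).1 hdvd)
    hb := fun hdvd => hb ((IsCyclotomicExtension.Rat.zeta_sub_one_dvd_intCast_iff' p hζ).1 hdvd)
    hc := by exact_mod_cast hc
    coprime := IsCoprime.intCast hab
    hcdvd := (IsCyclotomicExtension.Rat.zeta_sub_one_dvd_intCast_iff' p hζ).2 hpc
    H := by
      rw [Units.val_one, one_mul]
      exact_mod_cast congrArg (Int.cast : ℤ → 𝓞 K) h }⟩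

end Fermat.Agent.KummerL
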