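import Mathlib
import Fermat.Agent.KummerL.CaseII.Solution

/-!
# Case II: divisibility properties of the factors `a + ζ ^ i * b`
-/

set_option autoImplicit false

namespace Fermat.Agent.KummerL

open NumberField

variable {p : ℕ} [hp : Fact p.Prime] {K : Type*} [Field K] [NumberField K]
  [IsCyclotomicExtension {p} ℚ K] {ζ : K} {hζ : IsPrimitiveRoot ζ p}

/-- For a `Solution`, the factors `a + ζ ^ i * b` with `0 < i < p` are divisible by `λ` exactly
once. -/
theorem Solution.lam_sq_not_dvd_add_zeta_pow_mul (hp2 : p ≠ 2) (S : Solution hζ) {i : ℕ}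
    (hi0 : 0 < i) (hi : i < p) :
    ¬ (hζ.toInteger - 1) ^ 2 ∣ S.a + hζ.toInteger ^ i * S.b := by
  intro h
  have _ := hp2
  have hlam : Prime (hζ.toInteger - 1) := hζ.zeta_sub_one_prime'
  have hassoc : Associated (hζ.toInteger ^ i - hζ.toInteger ^ 0) (hζ.toInteger - 1) :=
    associated_pow_sub_pow hζ hi hp.out.pos hi0.ne'
  rw [pow_zero] at hassoc
  -- `λ ^ 2 ∣ (ζ ^ i - 1) * b`
  have h2 : (hζ.toInteger - 1) ^ 2 ∣ (hζ.toInteger ^ i - 1) * S.b := by
    have e : (hζ.toInteger ^ i - 1) * S.b =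
        (S.a + hζ.toInteger ^ i * S.b) - (S.a + S.b) := by ring
    rw [e]
    exact dvd_sub h S.hab
  obtain ⟨v, hv⟩ := hassoc.symm
  rw [← hv, pow_two, mul_assoc] at h2
  have h3 : (hζ.toInteger - 1) ∣ (v : 𝓞 K) * S.b := (mul_dvd_mul_iff_left hlam.ne_zero).1 h2
  exact S.hb ((Units.dvd_mul_left).1 h3)

/-- The extended multiplicity of `λ` in the factors `a + ζ ^ i * b` with `0 < i < p` is `1`. -/
private theorem c2fac_emultiplicity_eq_one (hp2 : p ≠ 2) (S : Solution hζ) {i : ℕ}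
    (hi0 : 0 < i) (hi : i < p) :
    emultiplicity (hζ.toInteger - 1) (S.a + hζ.toInteger ^ i * S.b) = 1 := by
  have h1 : (hζ.toInteger - 1) ^ 1 ∣ S.a + hζ.toInteger ^ i * S.b := by
    rw [pow_one]
    exact S.toSolution'.lam_dvd_add_zeta_pow_mul hp2 i
  have h2 : ¬ (hζ.toInteger - 1) ^ (1 + 1) ∣ S.a + hζ.toInteger ^ i * S.b :=
    S.lam_sq_not_dvd_add_zeta_pow_mul hp2 hi0 hi
  have h3 := emultiplicity_eq_of_dvd_of_not_dvd h1 h2
  rwa [Nat.cast_one] at h3

/-- The multiplicity count coming from `∏_{i < p} (a + ζ ^ i * b) = u * c ^ p`. -/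
private theorem c2fac_emultiplicity_add (hp2 : p ≠ 2) (S : Solution hζ) :
    emultiplicity (hζ.toInteger - 1) (S.a + S.b) + ((p - 1 : ℕ) : ℕ∞) =
      ((p * S.multiplicity : ℕ) : ℕ∞) := by
  have hlam : Prime (hζ.toInteger - 1) := hζ.zeta_sub_one_prime'
  have hfin : FiniteMultiplicity (hζ.toInteger - 1) S.c :=
    S.toSolution'.multiplicity_lambda_c_finite
  have h1 := congrArg (emultiplicity (hζ.toInteger - 1))
    (pow_add_pow_eq_prod_range hζ hp2 S.a S.b)
  rw [S.H, emultiplicity_mul hlam, emultiplicity_of_unit_right hlam.not_isUnit, zero_add,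
    emultiplicity_pow hlam, hfin.emultiplicity_eq_multiplicity,
    Finset.emultiplicity_prod hlam, Finset.sum_range_eq_add_Ico _ hp.out.pos, pow_zero, one_mul]
    at h1
  have h2 : ∑ x ∈ Finset.Ico 1 p, emultiplicity (hζ.toInteger - 1)
      (S.a + hζ.toInteger ^ x * S.b) = ∑ x ∈ Finset.Ico 1 p, (1 : ℕ∞) := by
    refine Finset.sum_congr rfl fun x hx => ?_
    rw [Finset.mem_Ico] at hx
    exact c2fac_emultiplicity_eq_one hp2 S (by omega) hx.2
  rw [h2, Finset.sum_const, Nat.card_Ico, nsmul_one] at h1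
  exact h1.symm.trans (Nat.cast_mul p S.multiplicity).symm

/-- The multiplicity of `λ` in `a + b` is `p * (m - 1) + 1` where `m` is the multiplicity of `λ`
in `c`; in particular `m ≥ 2`. -/
theorem Solution.multiplicity_add (hp2 : p ≠ 2) (S : Solution hζ) :
    _root_.multiplicity (hζ.toInteger - 1) (S.a + S.b) = p * (S.multiplicity - 1) + 1 ∧
      2 ≤ S.multiplicity := by
  have key := c2fac_emultiplicity_add hp2 S
  have hfin : FiniteMultiplicity (hζ.toInteger - 1) (S.a + S.b) := by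
    refine finiteMultiplicity_iff_emultiplicity_ne_top.2 fun ht => ?_
    rw [ht, top_add] at key
    exact ENat.top_ne_natCast _ key
  rw [hfin.emultiplicity_eq_multiplicity, ← Nat.cast_add, Nat.cast_inj] at key
  have hk2 : 2 ≤ _root_.multiplicity (hζ.toInteger - 1) (S.a + S.b) :=
    hfin.le_multiplicity_of_pow_dvd S.hab
  have hp1 : 1 ≤ p := hp.out.pos
  have hm2 : 2 ≤ S.multiplicity := by
    by_contra hlt
    have : p * S.multiplicity ≤ p * 1 := Nat.mul_le_mul_left p (by omega)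
    omega
  refine ⟨?_, hm2⟩
  obtain ⟨m', hm'⟩ : ∃ m', S.multiplicity = m' + 1 := ⟨S.multiplicity - 1, by omega⟩
  rw [hm'] at key ⊢
  rw [mul_add, mul_one] at key
  rw [Nat.add_sub_cancel]
  omega

/-- Two distinct factors `a + ζ ^ i * b`, `a + ζ ^ j * b` (`i ≠ j`, `i, j < p`) have no common
prime divisor other than (associates of) `λ`. -/
theorem Solution.associated_lam_of_dvd_of_dvd (hp2 : p ≠ 2) (S : Solution hζ) {i j : ℕ}
    (hi : i < p) (hj : j < p) (hij : i ≠ j) {π : 𝓞 K} (hπ : Prime π)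
    (h1 : π ∣ S.a + hζ.toInteger ^ i * S.b) (h2 : π ∣ S.a + hζ.toInteger ^ j * S.b) :
    Associated π (hζ.toInteger - 1) := by
  have _ := hp2
  have hlam : Prime (hζ.toInteger - 1) := hζ.zeta_sub_one_prime'
  by_contra hna
  have hndvd : ¬ π ∣ (hζ.toInteger - 1) := fun h => hna (hπ.associated_of_dvd hlam h)
  have hassoc : Associated (hζ.toInteger ^ i - hζ.toInteger ^ j) (hζ.toInteger - 1) :=
    associated_pow_sub_pow hζ hi hj hij
  have hndvd' : ¬ π ∣ (hζ.toInteger ^ i - hζ.toInteger ^ j) :=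
    fun h => hndvd ((hassoc.dvd_iff_dvd_right).1 h)
  have hb : π ∣ S.b := by
    have h3 : π ∣ (hζ.toInteger ^ i - hζ.toInteger ^ j) * S.b := by
      have e : (hζ.toInteger ^ i - hζ.toInteger ^ j) * S.b =
          (S.a + hζ.toInteger ^ i * S.b) - (S.a + hζ.toInteger ^ j * S.b) := by ring
      rw [e]
      exact dvd_sub h1 h2
    exact (hπ.dvd_or_dvd h3).resolve_left hndvd'
  have ha : π ∣ S.a := by
    have h3 : π ∣ (hζ.toInteger ^ i - hζ.toInteger ^ j) * S.a := by
      have e : (hζ.toInteger ^ i - hζ.toInteger ^ j) * S.a =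
          hζ.toInteger ^ i * (S.a + hζ.toInteger ^ j * S.b) -
            hζ.toInteger ^ j * (S.a + hζ.toInteger ^ i * S.b) := by ring
      rw [e]
      exact dvd_sub (h2.mul_left _) (h1.mul_left _)
    exact (hπ.dvd_or_dvd h3).resolve_left hndvd'
  exact hπ.not_isUnit (S.coprime.isUnit_of_dvd' ha hb)

end Fermat.Agent.KummerL
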