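import Mathlib
import Fermat.Agent.KummerL.CaseII.Factor

/-!
# Case II: factorisation step (needs `𝓞 K` to be a PID)
-/

set_option autoImplicit false

namespace Fermat.Agent.KummerL

open NumberField

variable {p : ℕ} [hp : Fact p.Prime] {K : Type*} [Field K] [NumberField K]
  [IsCyclotomicExtension {p} ℚ K] {ζ : K} {hζ : IsPrimitiveRoot ζ p}

/-- In a PID, a member of a pairwise coprime finite family whose product is associated to a
`k`-th power is itself associated to a `k`-th power. -/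
theorem c2fz_exists_associated_pow {R : Type*} [CommRing R] [IsDomain R]
    [IsPrincipalIdealRing R] {ι : Type*} [DecidableEq ι] (s : Finset ι) (A : ι → R) (k : ℕ)
    (c : R) (hcop : ∀ i ∈ s, ∀ j ∈ s, i ≠ j → IsCoprime (A i) (A j))
    (hprod : Associated (c ^ k) (∏ i ∈ s, A i)) {i : ι} (hi : i ∈ s) :
    ∃ d : R, Associated (d ^ k) (A i) := by
  have h1 : IsCoprime (A i) (∏ j ∈ s.erase i, A j) :=
    IsCoprime.prod_right fun j hj =>
      hcop i hi j (Finset.mem_of_mem_erase hj) (Finset.ne_of_mem_erase hj).symm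
  have h2 : A i * ∏ j ∈ s.erase i, A j = ∏ j ∈ s, A j := Finset.mul_prod_erase s A hi
  exact exists_associated_pow_of_associated_pow_mul h1 (h2 ▸ hprod)

/-- Multiplicity bookkeeping: if `x = l * (d ^ p * ε)` with `l` prime, `ε` a unit, `d ≠ 0`, and
the multiplicity of `l` in `x` is `p * n + 1`, then `d = l ^ n * ρ` with `l ∤ ρ`. -/
theorem c2fz_exists_eq_pow_mul {R : Type*} [CommRing R] [IsDomain R] [IsPrincipalIdealRing R]
    {l d x : R} {ε : Rˣ} {p n : ℕ} (hl : Prime l) (hp : 0 < p) (hd : d ≠ 0)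
    (hx : x = l * (d ^ p * ε)) (hmul : _root_.multiplicity l x = p * n + 1) :
    ∃ ρ : R, ¬ l ∣ ρ ∧ d = l ^ n * ρ := by
  have hfin : FiniteMultiplicity l d := FiniteMultiplicity.of_prime_left hl hd
  obtain ⟨ρ, hρ, hlρ⟩ := hfin.exists_eq_pow_mul_and_not_dvd
  have hx' : x = l ^ (p * _root_.multiplicity l d + 1) * (ρ ^ p * ε) := by
    rw [hx]
    nth_rewrite 1 [hρ]
    ring
  have hndvd : ¬ l ∣ ρ ^ p * ε := by
    intro h
    rcases hl.dvd_or_dvd h with h | h
    · exact hlρ (hl.dvd_of_dvd_pow h)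
    · exact hl.not_isUnit (isUnit_of_dvd_unit h ε.isUnit)
  have hmul' : _root_.multiplicity l x = p * _root_.multiplicity l d + 1 := by
    apply multiplicity_eq_of_dvd_of_not_dvd
    · exact ⟨_, hx'⟩
    · rw [hx', pow_succ l (p * _root_.multiplicity l d + 1)]
      intro h
      exact hndvd ((mul_dvd_mul_iff_left (pow_ne_zero _ hl.ne_zero)).mp h)
  have hkn : _root_.multiplicity l d = n := by
    have : p * _root_.multiplicity l d + 1 = p * n + 1 := hmul'.symm.trans hmul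
    exact Nat.eq_of_mul_eq_mul_left hp (by omega)
  exact ⟨ρ, hlρ, hkn ▸ hρ⟩

/-- The key output of unique factorisation: the three factors for `i = 0, 1, p - 1` are, up to
units and the explicit powers of `λ`, `p`-th powers. -/
theorem Solution.exists_factorization (hp2 : p ≠ 2) [IsPrincipalIdealRing (𝓞 K)]
    (S : Solution hζ) :
    ∃ (ρ₀ ρ₁ ρ₂ : 𝓞 K) (ε₀ ε₁ ε₂ : (𝓞 K)ˣ),
      ¬ (hζ.toInteger - 1) ∣ ρ₀ ∧ ¬ (hζ.toInteger - 1) ∣ ρ₁ ∧ ¬ (hζ.toInteger - 1) ∣ ρ₂ ∧
      IsCoprime ρ₁ ρ₂ ∧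
      S.a + S.b = ε₀ * (hζ.toInteger - 1) ^ (p * (S.multiplicity - 1) + 1) * ρ₀ ^ p ∧
      S.a + hζ.toInteger * S.b = ε₁ * (hζ.toInteger - 1) * ρ₁ ^ p ∧
      S.a + hζ.toInteger ^ (p - 1) * S.b = ε₂ * (hζ.toInteger - 1) * ρ₂ ^ p := by
  classical
  have hpp : p.Prime := hp.out
  have hp0 : 0 < p := hpp.pos
  have hp1 : 1 < p := hpp.one_lt
  have hp3 : 3 ≤ p := by have := hpp.two_le; omega
  have hlam : Prime (hζ.toInteger - 1) := hζ.zeta_sub_one_prime'
  -- the cofactors `A i` with `a + ζ ^ i * b = λ * A i`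
  have hdvd : ∀ i : ℕ, (hζ.toInteger - 1) ∣ S.a + hζ.toInteger ^ i * S.b :=
    fun i => S.toSolution'.lam_dvd_add_zeta_pow_mul hp2 i
  choose A hA using hdvd
  obtain ⟨c', hc'⟩ := S.hcdvd
  have hc'0 : c' ≠ 0 := by
    rintro rfl
    exact S.hc (by rw [hc', mul_zero])
  -- the product of the cofactors is `u * c' ^ p`
  have hprod : ∏ i ∈ Finset.range p, A i = S.u * c' ^ p := by
    have h1 : ∏ i ∈ Finset.range p, (S.a + hζ.toInteger ^ i * S.b) =
        (hζ.toInteger - 1) ^ p * ∏ i ∈ Finset.range p, A i := by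
      rw [Finset.prod_congr rfl (fun i _ => hA i), Finset.prod_mul_distrib, Finset.prod_const,
        Finset.card_range]
    have h2 : (hζ.toInteger - 1) ^ p * ∏ i ∈ Finset.range p, A i =
        (hζ.toInteger - 1) ^ p * (S.u * c' ^ p) := by
      rw [← h1, ← pow_add_pow_eq_prod_range hζ hp2, S.H, hc', mul_pow]
      ring
    exact mul_left_cancel₀ (pow_ne_zero _ hlam.ne_zero) h2
  have hA0 : ∀ i ∈ Finset.range p, A i ≠ 0 := by
    have : ∏ i ∈ Finset.range p, A i ≠ 0 := by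
      rw [hprod]
      exact mul_ne_zero S.u.ne_zero (pow_ne_zero _ hc'0)
    exact fun i hi => (Finset.prod_ne_zero_iff.mp this) i hi
  -- `λ ∤ A i` for `0 < i < p`
  have hnd : ∀ i : ℕ, 0 < i → i < p → ¬ (hζ.toInteger - 1) ∣ A i := by
    intro i hi0 hi h
    apply S.lam_sq_not_dvd_add_zeta_pow_mul hp2 hi0 hi
    rw [hA i, sq]
    exact mul_dvd_mul_left _ h
  -- the cofactors are pairwise coprime
  have hcop : ∀ i ∈ Finset.range p, ∀ j ∈ Finset.range p, i ≠ j → IsCoprime (A i) (A j) := by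
    intro i hi j hj hij
    rw [Finset.mem_range] at hi hj
    refine isCoprime_of_prime_dvd (fun h => hA0 i (Finset.mem_range.mpr hi) h.1) ?_
    intro π hπ h1 h2
    have hass : Associated π (hζ.toInteger - 1) :=
      S.associated_lam_of_dvd_of_dvd hp2 hi hj hij hπ
        (by rw [hA i]; exact Dvd.dvd.mul_left h1 _) (by rw [hA j]; exact Dvd.dvd.mul_left h2 _)
    rcases Nat.eq_zero_or_pos i with hi0 | hi0
    · have hj0 : 0 < j := by omega
      exact hnd j hj0 hj (hass.symm.dvd.trans h2)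
    · exact hnd i hi0 hi (hass.symm.dvd.trans h1)
  have hassoc : Associated (c' ^ p) (∏ i ∈ Finset.range p, A i) := by
    rw [hprod]
    exact ⟨S.u, mul_comm _ _⟩
  have key : ∀ i ∈ Finset.range p, ∃ d : 𝓞 K, Associated (d ^ p) (A i) := fun i hi =>
    c2fz_exists_associated_pow (Finset.range p) A p c' hcop hassoc hi
  obtain ⟨d₀, ε₀, h₀⟩ := key 0 (Finset.mem_range.mpr hp0)
  obtain ⟨d₁, ε₁, h₁⟩ := key 1 (Finset.mem_range.mpr hp1)
  obtain ⟨d₂, ε₂, h₂⟩ := key (p - 1) (Finset.mem_range.mpr (by omega))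
  -- the factor `i = 0`: multiplicity bookkeeping
  have hd₀ : d₀ ≠ 0 := by
    rintro rfl
    apply hA0 0 (Finset.mem_range.mpr hp0)
    rw [← h₀, zero_pow hp0.ne', zero_mul]
  have hab : S.a + S.b = (hζ.toInteger - 1) * (d₀ ^ p * ε₀) := by
    rw [h₀, ← hA 0, pow_zero, one_mul]
  obtain ⟨ρ₀, hρ₀, hdρ₀⟩ := c2fz_exists_eq_pow_mul hlam hp0 hd₀ hab (S.multiplicity_add hp2).1
  refine ⟨ρ₀, d₁, d₂, ε₀, ε₁, ε₂, hρ₀, ?_, ?_, ?_, ?_, ?_, ?_⟩
  · intro h
    apply hnd 1 one_pos hp1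
    rw [← h₁]
    exact Dvd.dvd.mul_right (dvd_pow h hp0.ne') _
  · intro h
    apply hnd (p - 1) (by omega) (by omega)
    rw [← h₂]
    exact Dvd.dvd.mul_right (dvd_pow h hp0.ne') _
  · have h12 : IsCoprime (A 1) (A (p - 1)) :=
      hcop 1 (Finset.mem_range.mpr hp1) (p - 1) (Finset.mem_range.mpr (by omega)) (by omega)
    rw [← h₁, ← h₂] at h12
    exact (IsCoprime.pow_iff hp0 hp0).mp h12.of_mul_left_left.of_mul_right_left
  · rw [hab, hdρ₀]
    ring
  · have h := hA 1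
    rw [pow_one] at h
    rw [h, ← h₁]
    ring
  · rw [hA (p - 1), ← h₂]
    ring

end Fermat.Agent.KummerL
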