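import Mathlib
import Fermat.Agent.KummerL.CaseII.Factorization

/-!
# Case II: the descent and the final statement
-/

set_option autoImplicit false

namespace Fermat.Agent.KummerL

open NumberField

/-- The purely algebraic identity behind the descent step: from the three factorisations
`a + b = e₀ λ ^ (p k + 1) r₀ ^ p`, `a + z b = e₁ λ r₁ ^ p`, `a + z ^ (p - 1) b = e₂ λ r₂ ^ p`
and `z ^ p = 1` we get `r₁ ^ p + (z e₂ e₁⁻¹) r₂ ^ p = ((1 + z) e₀ e₁⁻¹) (λ ^ k r₀) ^ p`. -/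
theorem c2desc_alg {R : Type*} [CommRing R] [IsDomain R] (p k : ℕ) (hp0 : p ≠ 0)
    (z lam a b r0 r1 r2 e0 e1 e1i e2 : R) (hlam : lam ≠ 0) (he1 : e1 * e1i = 1)
    (hz : z ^ p = 1)
    (h0 : a + b = e0 * lam ^ (p * k + 1) * r0 ^ p)
    (h1 : a + z * b = e1 * lam * r1 ^ p)
    (h2 : a + z ^ (p - 1) * b = e2 * lam * r2 ^ p) :
    r1 ^ p + z * e2 * e1i * r2 ^ p = (1 + z) * e0 * e1i * (lam ^ k * r0) ^ p := by
  obtain ⟨q, rfl⟩ := Nat.exists_eq_succ_of_ne_zero hp0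
  simp only [Nat.succ_eq_add_one, Nat.add_sub_cancel] at *
  apply mul_left_cancel₀ hlam
  linear_combination (-e1i) * h1 + (-lam * r1 ^ (q + 1)) * he1 + (-z * e1i) * h2
    + ((1 + z) * e1i) * h0 + (e1i * b) * hz

/-- The congruence needed to apply Kummer's lemma: if `x₁ + e x₂ ≡ 0`, `x₁ ≡ n₁`, `x₂ ≡ n₂`
modulo `P` and `n₂` is invertible modulo `P` (with inverse `v`), then `e ≡ -(n₁ v)` modulo `P`. -/
theorem c2desc_congr {R : Type*} [CommRing R] (P e x1 x2 : R) (n1 n2 u v : ℤ)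
    (hd : P ∣ x1 + e * x2) (hn1 : P ∣ x1 - (n1 : R)) (hn2 : P ∣ x2 - (n2 : R))
    (huv : (u : R) * P + (v : R) * (n2 : R) = 1) :
    P ∣ e - ((-(n1 * v) : ℤ) : R) := by
  obtain ⟨d, hd⟩ := hd
  obtain ⟨d1, hn1⟩ := hn1
  obtain ⟨d2, hn2⟩ := hn2
  refine ⟨e * u + v * (d - e * d2 - d1), ?_⟩
  push_cast
  linear_combination (-e) * huv + (v : R) * hd + (-(v : R)) * hn1 + (-(v : R) * e) * hn2

variable {p : ℕ} [hp : Fact p.Prime] {K : Type*} [Field K] [NumberField K]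
  [IsCyclotomicExtension {p} ℚ K] {ζ : K} {hζ : IsPrimitiveRoot ζ p}

/-- The descent step: from a `Solution` we get a `Solution'` with strictly smaller multiplicity. -/
theorem exists_Solution'_multiplicity_lt (hp2 : p ≠ 2) [IsPrincipalIdealRing (𝓞 K)]
    (hK : KummerLemmaHolds p K) (S : Solution hζ) :
    ∃ S₁ : Solution' hζ, S₁.multiplicity < S.multiplicity := by
  obtain ⟨-, hm⟩ := S.multiplicity_add hp2
  obtain ⟨ρ₀, ρ₁, ρ₂, ε₀, ε₁, ε₂, hρ₀, hρ₁, hρ₂, hcop, h0, h1, h2⟩ :=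
    S.exists_factorization hp2
  have hp0 : p ≠ 0 := hp.out.ne_zero
  -- `λ ≠ 0` and `ρ₀ ≠ 0`
  have hlam0 : hζ.toInteger - 1 ≠ 0 := by
    intro h
    have hc := S.hcdvd
    rw [h] at hc
    exact S.hc (zero_dvd_iff.mp hc)
  have hρ₀0 : ρ₀ ≠ 0 := by
    rintro rfl
    exact hρ₀ (dvd_zero _)
  have hzp : hζ.toInteger ^ p = 1 := hζ.toInteger_isPrimitiveRoot.pow_eq_one
  obtain ⟨zu, hzu⟩ : IsUnit hζ.toInteger := hζ.toInteger_isPrimitiveRoot.isUnit hp0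
  obtain ⟨wu, hwu⟩ : IsUnit (1 + hζ.toInteger) := isUnit_one_add_zeta hζ hp2
  obtain ⟨k, hk⟩ : ∃ k, S.multiplicity = k + 2 := ⟨S.multiplicity - 2, by omega⟩
  have hk1 : S.multiplicity - 1 = k + 1 := by omega
  rw [hk1] at h0
  -- the new equation
  have key : ρ₁ ^ p + ((zu * ε₂ * ε₁⁻¹ : (𝓞 K)ˣ) : 𝓞 K) * ρ₂ ^ p =
      ((wu * ε₀ * ε₁⁻¹ : (𝓞 K)ˣ) : 𝓞 K) * ((hζ.toInteger - 1) ^ (k + 1) * ρ₀) ^ p := by
    rw [Units.val_mul, Units.val_mul, Units.val_mul, Units.val_mul, hzu, hwu]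
    exact c2desc_alg p (k + 1) hp0 hζ.toInteger (hζ.toInteger - 1) S.a S.b ρ₀ ρ₁ ρ₂
      ε₀ ε₁ (ε₁⁻¹ : (𝓞 K)ˣ) ε₂ hlam0 ε₁.mul_inv hzp h0 h1 h2
  -- `p` divides the left-hand side
  have hdvd : (p : 𝓞 K) ∣ ρ₁ ^ p + ((zu * ε₂ * ε₁⁻¹ : (𝓞 K)ˣ) : 𝓞 K) * ρ₂ ^ p := by
    rw [key]
    refine Dvd.dvd.mul_left ?_ _
    rw [mul_pow, ← pow_mul, mul_comm (k + 1) p, pow_mul]
    refine Dvd.dvd.mul_right ?_ _
    exact (prime_dvd_lam_pow hζ).trans (dvd_pow_self _ (Nat.succ_ne_zero k))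
  -- the unit `zu * ε₂ * ε₁⁻¹` is congruent to a rational integer modulo `p`
  obtain ⟨n₁, -, hn₁⟩ := exists_int_sub_pow_dvd' hζ hp2 ρ₁ hρ₁
  obtain ⟨n₂, hn₂p, hn₂⟩ := exists_int_sub_pow_dvd' hζ hp2 ρ₂ hρ₂
  have hcop' : IsCoprime (p : ℤ) n₂ :=
    (Nat.prime_iff_prime_int.mp hp.out).coprime_iff_not_dvd.mpr hn₂p
  obtain ⟨u, v, huv⟩ := hcop'
  have huv' : (u : 𝓞 K) * (p : 𝓞 K) + (v : 𝓞 K) * (n₂ : 𝓞 K) = 1 := by
    exact_mod_cast congrArg (Int.cast : ℤ → 𝓞 K) huv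
  -- Kummer's lemma
  obtain ⟨ε₃, hε₃⟩ := hK (zu * ε₂ * ε₁⁻¹)
    ⟨-(n₁ * v), c2desc_congr _ _ _ _ n₁ n₂ u v hdvd hn₁ hn₂ huv'⟩
  -- the multiplicity of `λ` in the new `c`
  have hmult : _root_.multiplicity (hζ.toInteger - 1) ((hζ.toInteger - 1) ^ (k + 1) * ρ₀) =
      k + 1 := by
    apply multiplicity_eq_of_dvd_of_not_dvd (dvd_mul_right _ _)
    rw [pow_succ]
    intro h
    exact hρ₀ ((mul_dvd_mul_iff_left (pow_ne_zero _ hlam0)).mp h)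
  refine ⟨{ a := ρ₁
            b := ε₃ * ρ₂
            c := (hζ.toInteger - 1) ^ (k + 1) * ρ₀
            u := wu * ε₀ * ε₁⁻¹
            ha := hρ₁
            hb := fun h => hρ₂ (Units.dvd_mul_left.mp h)
            hc := mul_ne_zero (pow_ne_zero _ hlam0) hρ₀0
            coprime := (isCoprime_mul_unit_left_right ε₃.isUnit _ _).mpr hcop
            hcdvd := Dvd.dvd.mul_right (dvd_pow_self _ (Nat.succ_ne_zero k)) _
            H := by
              rw [mul_pow, ← Units.val_pow_eq_pow_val, ← hε₃]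
              exact key }, ?_⟩
  show _root_.multiplicity (hζ.toInteger - 1) ((hζ.toInteger - 1) ^ (k + 1) * ρ₀) <
    S.multiplicity
  rw [hmult, hk]
  omega

/-- There is no `Solution'`. -/
theorem isEmpty_Solution' (hp2 : p ≠ 2) [IsPrincipalIdealRing (𝓞 K)]
    (hK : KummerLemmaHolds p K) (hζ : IsPrimitiveRoot ζ p) : IsEmpty (Solution' hζ) := by
  have key : ∀ n : ℕ, ∀ S : Solution hζ, S.multiplicity = n → False := by
    intro n
    induction n using Nat.strong_induction_on with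
    | _ n ih =>
      intro S hS
      obtain ⟨S₁, hS₁⟩ := exists_Solution'_multiplicity_lt hp2 hK S
      obtain ⟨S₂, hS₂⟩ := exists_Solution_of_Solution' hp2 S₁
      exact ih S₂.multiplicity (by omega) S₂ rfl
  refine ⟨fun S' => ?_⟩
  obtain ⟨S, -⟩ := exists_Solution_of_Solution' hp2 S'
  exact key _ S rfl

/-- **Case II of Fermat's Last Theorem** for an odd prime `p` such that `𝓞 ℚ(ζ_p)` is a PID and
Kummer's lemma holds. -/
theorem caseII (hp2 : p ≠ 2) (K : Type*) [Field K] [NumberField K]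
    [IsCyclotomicExtension {p} ℚ K] [IsPrincipalIdealRing (𝓞 K)] (hK : KummerLemmaHolds p K) :
    ∀ a b c : ℤ, c ≠ 0 → ¬ (p : ℤ) ∣ a → ¬ (p : ℤ) ∣ b → (p : ℤ) ∣ c → IsCoprime a b →
      a ^ p + b ^ p ≠ c ^ p := by
  intro a b c hc ha hb hpc hab h
  have hζ := IsCyclotomicExtension.zeta_spec p ℚ K
  obtain ⟨S⟩ := exists_Solution'_of_int hp2 hζ hc ha hb hpc hab h
  exact (isEmpty_Solution' hp2 hK hζ).false S

end Fermat.Agent.KummerL
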